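import Fermat.Agent.Jac.Field.Degree

/-!
# Degrees of twists, homomorphism bundles and sub-bundles
-/

set_option autoImplicit false

universe u

noncomputable section

open TensorProduct

namespace Fermat.Agent.Jac

variable {k : Type u} [Field k] {D : CurveData k} {K : Type u} [Field K] [Algebra k K]

/-- In a module of rank one a map which kills a nonzero vector is zero. -/
theorem eq_zero_of_apply_eq_zero {A P N : Type u} [CommRing A] [IsDomain A] [AddCommGroup P]
    [Module A P] [Module.Invertible A P] [AddCommGroup N] [Module A N] [Module.IsTorsionFree A N]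
    {σ : P} (hσ : σ ≠ 0) {ψ : P →ₗ[A] N} (h : ψ σ = 0) : ψ = 0 := by
  obtain ⟨a, ha, ha0⟩ := (Submodule.ne_bot_iff _).mp (content_ne_bot (A := A) hσ)
  obtain ⟨φ, rfl⟩ := mem_content.mp ha
  refine LinearMap.ext fun x => ?_
  have := congrArg ψ (apply_smul_comm φ σ x)
  rw [map_smul, map_smul, h, smul_zero, smul_eq_zero] at this
  exact this.resolve_left ha0

namespace LB

/-- Isomorphic bundles have the same Euler characteristic. -/
theorem chi_congr' {L L' : LB D K} (e : L.Iso L') : L'.chi = L.chi := by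
  have hf : ∀ i, ∀ m ∈ L.L i, e.e.toLinearMap m ∈ L'.L i := fun i m hm => (e.mem_iff i m).2 hm
  have h := chi_eq_add (f := e.e.toLinearMap) (hf := hf) e.e.injective
  have h01 : defect01 e.e.toLinearMap = 0 := by
    have := Submodule.Quotient.subsingleton_iff.mpr e.e.range
    exact Module.finrank_zero_of_subsingleton
  have hi : ∀ i, defect e.e.toLinearMap hf i = 0 := fun i => by
    have := Submodule.Quotient.subsingleton_iff.mpr (LinearMap.range_eq_top.mpr
      (fun x => ⟨⟨e.e.symm x, (e.mem_iff i _).1 (by simp)⟩, Subtype.ext (e.e.apply_symm_apply _)⟩ :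
        Function.Surjective (onChart e.e.toLinearMap hf i)))
    exact Module.finrank_zero_of_subsingleton
  rw [h, h01, hi, hi]
  simp

/-- A nonzero section gives a map from the trivial bundle. -/
def ofSection (L : LB D K) (σ : L.M) : (LB.unit (D := D) K).M →ₗ[D.A01 K] L.M :=
  LinearMap.toSpanSingleton (D.A01 K) L.M σ

theorem ofSection_apply (L : LB D K) (σ : L.M) (a : D.A01 K) : L.ofSection σ a = a • σ := rfl

theorem ofSection_mem {L : LB D K} {σ : L.M} (hσ : σ ∈ L.H0) (i : Fin 2)
    (m : (LB.unit (D := D) K).M) (hm : m ∈ (LB.unit (D := D) K).L i) : L.ofSection σ m ∈ L.L i := by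
  obtain ⟨a, rfl⟩ := hm
  have hi : σ ∈ L.L i := by
    fin_cases i
    exacts [hσ.1, hσ.2]
  rw [ofSection_apply, Algebra.linearMap_apply, algebraMap_smul]
  exact (L.L i).smul_mem a hi

theorem ofSection_injective {L : LB D K} {σ : L.M} (h0 : σ ≠ 0) :
    Function.Injective (L.ofSection σ) :=
  smul_left_injective (D.A01 K) h0

/-- The section on a chart. -/
def chartSection {L : LB D K} {σ : L.M} (hσ : σ ∈ L.H0) (i : Fin 2) : L.L i :=
  ⟨σ, by fin_cases i; exacts [hσ.1, hσ.2]⟩

theorem chartSection_ne {L : LB D K} {σ : L.M} (hσ : σ ∈ L.H0) (h0 : σ ≠ 0) (i : Fin 2) :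
    chartSection hσ i ≠ 0 := fun h => h0 (congrArg Subtype.val h)

theorem range_onChart_ofSection {L : LB D K} {σ : L.M} (hσ : σ ∈ L.H0) (i : Fin 2) :
    LinearMap.range (onChart (L.ofSection σ) (ofSection_mem hσ) i) =
      (content (chartSection hσ i) : Ideal (D.A K i)) • ⊤ := by
  rw [← span_singleton_eq_content]
  refine le_antisymm ?_ ((Submodule.span_singleton_le_iff_mem _ _).mpr ?_)
  · rintro _ ⟨⟨_, a, rfl⟩, rfl⟩
    refine Submodule.mem_span_singleton.mpr ⟨a, Subtype.ext ?_⟩
    simp [ofSection_apply, chartSection]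
  · exact ⟨⟨(1 : D.A01 K), (1 : D.A K i), map_one (algebraMap (D.A K i) (D.A01 K))⟩,
      Subtype.ext (one_smul (D.A01 K) σ)⟩

theorem range_ofSection {L : LB D K} (σ : L.M) :
    LinearMap.range (L.ofSection σ) = (content σ : Ideal (D.A01 K)) • ⊤ := by
  rw [← span_singleton_eq_content]
  exact LinearMap.range_toSpanSingleton σ

variable {L L' : LB D K}

/-- Evaluation at a section. -/
def evalAt (L L' : LB D K) (σ : L.M) : (L.hom L').M →ₗ[D.A01 K] L'.M :=
  LinearMap.applyₗ σ ∘ₗ toMap.toLinearMap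

theorem evalAt_mem {σ : L.M} (hσ : σ ∈ L.H0) (i : Fin 2) (ψ : (L.hom L').M)
    (hψ : ψ ∈ (L.hom L').L i) :
    L.evalAt L' σ ψ ∈ L'.L i :=
  mem_hom.mp hψ σ (chartSection hσ i).2

theorem evalAt_injective {σ : L.M} (h0 : σ ≠ 0) : Function.Injective (L.evalAt L' σ) :=
  (injective_iff_map_eq_zero _).mpr fun _ h =>
    toMap.map_eq_zero_iff.mp (eq_zero_of_apply_eq_zero h0 h)

theorem range_onChart_evalAt {σ : L.M} (hσ : σ ∈ L.H0) (i : Fin 2) :
    LinearMap.range (onChart (L.evalAt L' σ) (evalAt_mem hσ) i) =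
      (content (chartSection hσ i) : Ideal (D.A K i)) • ⊤ := by
  rw [← range_applyₗ_eq_content]
  refine le_antisymm ?_ ?_
  · rintro _ ⟨ψ, rfl⟩
    exact ⟨((toMap ψ.1).restrictScalars (D.A K i)).restrict (mem_hom.mp ψ.2), rfl⟩
  · rintro _ ⟨g, rfl⟩
    exact ⟨⟨_, L.extendLattice_subtype_mem L' i g⟩,
      Subtype.ext (L.extendLattice_apply ((L'.L i).subtype ∘ₗ g)
        (chartSection hσ i))⟩

theorem range_evalAt (σ : L.M) :
    LinearMap.range (L.evalAt L' σ) = (content σ : Ideal (D.A01 K)) • ⊤ := by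
  rw [evalAt, LinearMap.range_comp, LinearEquiv.range, Submodule.map_top]
  exact range_applyₗ_eq_content σ

theorem finite_quotient_content {σ : L.M} (hσ : σ ∈ L.H0) (h0 : σ ≠ 0) :
    FiniteDimensional K (D.A01 K ⧸ (content σ : Ideal (D.A01 K))) := by
  have := finite_coker01 (f := L.evalAt (LB.unit K) σ) (hf := evalAt_mem hσ) (evalAt_injective h0)
  have hr : LinearMap.range (L.evalAt (LB.unit (D := D) K) σ) = (content σ : Ideal (D.A01 K)) :=
    (range_evalAt (L' := LB.unit K) σ).trans (Ideal.mul_top _)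
  exact Module.Finite.equiv ((Submodule.quotEquivOfEq _ _ hr).restrictScalars K)

theorem chi_sub_chi_hom {σ : L.M} (hσ : σ ∈ L.H0) (h0 : σ ≠ 0) :
    L'.chi - (L.hom L').chi = L.chi - (LB.unit (D := D) K).chi := by
  have e₁ := chi_eq_add (f := L.evalAt L' σ) (hf := evalAt_mem hσ) (evalAt_injective h0)
  have e₂ := chi_eq_add (f := L.ofSection σ) (hf := ofSection_mem hσ) (ofSection_injective h0)
  have hi : ∀ i, defect (L.evalAt L' σ) (evalAt_mem hσ) i =
      defect (L.ofSection σ) (ofSection_mem hσ) i := by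
    intro i
    rw [defect, defect, range_onChart_evalAt hσ, range_onChart_ofSection hσ,
      finrank_quotient_smul_top (content_ne_bot (chartSection_ne hσ h0 i)),
      finrank_quotient_smul_top (content_ne_bot (chartSection_ne hσ h0 i))]
  have h01 : defect01 (L.evalAt L' σ) = defect01 (L.ofSection σ) := by
    have := finite_quotient_content hσ h0
    rw [defect01, defect01, range_evalAt, range_ofSection]
    exact ((nonempty_quotient_equiv (P := L'.M) K (content σ : Ideal (D.A01 K))).some.trans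
      (nonempty_quotient_equiv (P := L.M) K
        (content σ : Ideal (D.A01 K))).some.symm).restrictScalars K
        |>.finrank_eq
  rw [e₁, e₂, hi, hi, h01]
  ring

theorem finrank_quotient_tR_pow (i : Fin 2) (n : ℕ) :
    Module.finrank K (D.A K i ⧸ Ideal.span {D.tR K i ^ n}) =
      n * Module.finrank K (D.A K i ⧸ Ideal.span {D.tR K i}) := by
  let μ : ℕ → D.A K i →ₗ[K] D.A K i := fun m => LinearMap.mulLeft K (D.tR K i ^ m)
  have hinj : ∀ m, Function.Injective (μ m) := fun m =>
    mul_right_injective₀ (pow_ne_zero m (CurveData.tR_ne_zero i))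
  have hr :
      ∀ m, LinearMap.range (μ m) = (Ideal.span {D.tR K i ^ m}).restrictScalars K := fun m => by
    ext x
    simp [μ, Ideal.mem_span_singleton', mul_comm (D.tR K i ^ m)]
  have hk : ∀ m, FiniteDimensional K (LinearMap.ker (μ m)) := fun m => by
    rw [LinearMap.ker_eq_bot.mpr (hinj m)]; infer_instance
  have e :
      ∀ m, (D.A K i ⧸ LinearMap.range (μ m)) ≃ₗ[K] D.A K i ⧸ Ideal.span {D.tR K i ^ m} := fun m =>
    Submodule.quotEquivOfEq _ _ (hr m) ≪≫ₗ Submodule.Quotient.restrictScalarsEquiv K _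
  have hc : ∀ m, FiniteDimensional K (D.A K i ⧸ LinearMap.range (μ m)) := fun m =>
    have := CurveData.finiteDimensional_quotient (D := D) (K := K) (I := Ideal.span {D.tR K i ^ m})
      (by simpa using pow_ne_zero m (CurveData.tR_ne_zero (D := D) (K := K) i))
    Module.Finite.equiv (e m).symm
  have hidx : ∀ m,
      (μ m).index = -(Module.finrank K (D.A K i ⧸ Ideal.span {D.tR K i ^ m}) : ℤ) := fun m => by
    rw [LinearMap.index_of_injective (hinj m), (e m).finrank_eq]
  have hcomp : ∀ m, μ (m + 1) = μ 1 ∘ₗ μ m := fun m => by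
    ext x
    simp [μ, pow_succ']
  induction n with
  | zero => simp [Ideal.span_singleton_one, Module.finrank_zero_of_subsingleton]
  | succ n ih =>
    have h := hidx (n + 1)
    rw [hcomp, LinearMap.index_comp, hidx, hidx, ih, pow_one] at h
    push_cast at h
    rw [Nat.succ_mul]
    omega

/-- A map whose image on a chart consists of the multiples of the `n`-th power of the coordinate
has defect there `n` times the codimension of the ideal of the coordinate. -/
theorem defect_of_pow {f : L.M →ₗ[D.A01 K] L'.M} {hf : ∀ i, ∀ m ∈ L.L i, f m ∈ L'.L i}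
    (i : Fin 2) (n : ℕ) (h : ∀ m ∈ L'.L i, (∃ x ∈ L.L i, f x = m) ↔ ∃ y ∈ L'.L i,
      D.tR K i ^ n • y = m) :
    defect f hf i = n * Module.finrank K (D.A K i ⧸ Ideal.span {D.tR K i}) := by
  have hr : LinearMap.range (onChart f hf i) = Ideal.span {D.tR K i ^ n} • ⊤ := by
    ext ⟨m, hm⟩
    rw [Submodule.ideal_span_singleton_smul, Submodule.mem_smul_pointwise_iff_exists]
    constructor
    · rintro ⟨⟨x, hx⟩, hxm⟩
      obtain ⟨y, hy, e⟩ := (h m hm).mp ⟨x, hx, congrArg Subtype.val hxm⟩
      exact ⟨⟨y, hy⟩, Submodule.mem_top, Subtype.ext e⟩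
    · rintro ⟨⟨y, hy⟩, -, e⟩
      obtain ⟨x, hx, e'⟩ := (h m hm).mpr ⟨y, hy, congrArg Subtype.val e⟩
      exact ⟨⟨x, hx⟩, Subtype.ext e'⟩
  rw [defect, hr, finrank_quotient_smul_top, finrank_quotient_tR_pow]
  simpa using pow_ne_zero n (CurveData.tR_ne_zero (D := D) (K := K) i)

theorem exists_tR_pow_smul_eq (n : ℕ) (i : Fin 2) (x : L.M) : ∃ y, D.tR K i ^ n • y = x := by
  obtain ⟨v, hv⟩ := (CurveData.isUnit_tR (D := D) (R := K) i).pow n
  refine ⟨(↑v⁻¹ : D.A01 K) • x, ?_⟩
  rw [← algebraMap_smul (D.A01 K) (D.tR K i ^ n), map_pow, ← hv, smul_smul, Units.mul_inv, one_smul]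

/-- The `n`th twist adds `n` times the degree at infinity to the Euler characteristic. -/
theorem chi_twist (n : ℕ) : (L.twist n).chi = L.chi + n * D.dInf := by
  let f : L.M →ₗ[D.A01 K] (L.twist n).M := LinearMap.id
  have hf : ∀ i, ∀ m ∈ L.L i, f m ∈ (L.twist n).L i := fun i m hm =>
    mem_twist.mpr ((L.L i).smul_mem _ hm)
  have hd : ∀ i, defect f hf i =
      n * (i : ℕ) * Module.finrank K (D.A K i ⧸ Ideal.span {D.tR K i}) := by
    intro i
    refine defect_of_pow i _ fun m hm => ⟨?_, ?_⟩
    · rintro ⟨x, hx, e⟩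
      obtain ⟨y, hy⟩ := exists_tR_pow_smul_eq (L := L) (n * (i : ℕ)) i x
      exact ⟨y, mem_twist.mpr (hy.symm ▸ hx), hy.trans e⟩
    · rintro ⟨y, hy, rfl⟩
      exact ⟨_, mem_twist.mp hy, rfl⟩
  have h01 : defect01 f = 0 := by
    have : Subsingleton ((L.twist n).M ⧸ LinearMap.range f) :=
      Submodule.Quotient.subsingleton_iff.mpr LinearMap.range_id
    exact Module.finrank_zero_of_subsingleton
  rw [chi_eq_add (f := f) (hf := hf) Function.injective_id, hd, hd, h01,
    CurveData.span_tR_finrank 1]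
  simp [CurveData.dInf]

theorem chi_hom_twist (n : ℕ) : (L.hom L').chi = ((L.twist n).hom L').chi + n * D.dInf := by
  let f : ((L.twist n).hom L').M →ₗ[D.A01 K] (L.hom L').M := LinearMap.id
  have hsub : ∀ i, ∀ m ∈ L.L i, m ∈ (L.twist n).L i :=
    fun i m hm => mem_twist.mpr ((L.L i).smul_mem _ hm)
  have hf : ∀ i, ∀ ψ ∈ ((L.twist n).hom L').L i, f ψ ∈ (L.hom L').L i := fun i ψ hψ m hm =>
    hψ m (hsub i m hm)
  have hd : ∀ i, defect f hf i =
      n * (i : ℕ) * Module.finrank K (D.A K i ⧸ Ideal.span {D.tR K i}) := by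
    intro i
    refine defect_of_pow i _ fun ψ hψ => ⟨?_, ?_⟩
    · rintro ⟨χ, hχ, e⟩
      obtain ⟨χ', hχ'⟩ := exists_tR_pow_smul_eq (L := L.hom L') (n * (i : ℕ)) i χ
      refine ⟨χ', fun m hm => ?_, hχ'.trans e⟩
      obtain ⟨x, hx⟩ := exists_tR_pow_smul_eq (L := L) (n * (i : ℕ)) i m
      have := hχ x (mem_twist.mpr (hx.symm ▸ hm))
      rw [← hχ'] at this
      rw [← hx, LinearMap.map_smul_of_tower]
      exact this
    · rintro ⟨χ, hχ, rfl⟩
      refine ⟨_, fun m hm => ?_, rfl⟩
      have := hχ _ (mem_twist.mp hm)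
      rwa [LinearMap.map_smul_of_tower] at this
  have h01 : defect01 f = 0 := by
    have : Subsingleton ((L.hom L').M ⧸ LinearMap.range f) :=
      Submodule.Quotient.subsingleton_iff.mpr LinearMap.range_id
    exact Module.finrank_zero_of_subsingleton
  rw [chi_eq_add (f := f) (hf := hf) Function.injective_id, hd, hd, h01,
    CurveData.span_tR_finrank 1]
  simp [CurveData.dInf]

/-- A bundle of positive Euler characteristic has a nonzero global section. -/
theorem exists_section_of_chi_pos (h : 0 < L.chi) : ∃ σ ∈ L.H0, σ ≠ 0 := by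
  by_contra! hc
  have : Subsingleton L.H0 := ⟨fun x y => Subtype.ext ((hc x x.2).trans (hc y y.2).symm)⟩
  have h0 : L.h0 = 0 := Module.finrank_zero_of_subsingleton
  rw [chi, h0] at h
  omega

/-- The Euler characteristic of `Hom(L, L')` is `χ(L') - χ(L) + χ(O)`. -/
theorem chi_hom (hd : 0 < D.dInf) : (L.hom L').chi = L'.chi - L.chi + (LB.unit (D := D) K).chi := by
  obtain ⟨n, hn⟩ : ∃ n : ℕ, 0 < (L.twist n).chi := by
    refine ⟨L.chi.natAbs + 1, ?_⟩
    have h1 : L.chi.natAbs + 1 ≤ (L.chi.natAbs + 1) * D.dInf := Nat.le_mul_of_pos_right _ hd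
    rw [chi_twist]
    omega
  obtain ⟨σ, hσ, h0⟩ := exists_section_of_chi_pos hn
  have h := chi_sub_chi_hom (L' := L') hσ h0
  rw [chi_hom_twist n]
  rw [chi_twist] at h
  linarith

/-- A sub-bundle loses the length of the quotient in Euler characteristic. -/
theorem chi_subBundle (N : LB D K) {i : Fin 2} {S : Submodule (D.A K i) N.M}
    (h : N.IsSubLattice i S) :
    (N.subBundle i S h).chi = N.chi - Module.finrank K ((N.L i) ⧸ S.comap (N.L i).subtype) := by
  let f : (N.subBundle i S h).M →ₗ[D.A01 K] N.M := (Submodule.span (D.A01 K) (S : Set N.M)).subtype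
  have hf : ∀ j, ∀ m ∈ (N.subBundle i S h).L j, f m ∈ N.L j := fun j m hm => hm.1
  have hinj : Function.Injective f := Subtype.val_injective
  have hi : defect f hf i = Module.finrank K ((N.L i) ⧸ S.comap (N.L i).subtype) := by
    have hr : LinearMap.range (onChart f hf i) = S.comap (N.L i).subtype := by
      ext ⟨m, hm⟩
      constructor
      · rintro ⟨⟨x, hx⟩, e⟩
        have hxS : f x ∈ S := hx.2 rfl
        have e' : f x = m := congrArg Subtype.val e
        exact (e' ▸ hxS : m ∈ S)
      · intro hS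
        exact ⟨⟨⟨m, Submodule.subset_span hS⟩, hm, fun _ => hS⟩, rfl⟩
    rw [defect, hr]
  have hne : ∀ j, j ≠ i → defect f hf j = defect01 f := fun j hj =>
    defect_eq_of_saturated hinj j fun m hm hmr => by
      obtain ⟨x, rfl⟩ := hmr
      exact ⟨x, ⟨hm, fun e => absurd e hj⟩, rfl⟩
  rw [chi_eq_add (f := f) (hf := hf) hinj, ← hi]
  fin_cases i
  · have := hne 1 (by decide)
    simp only [Fin.zero_eta] at *
    omega
  · have := hne 0 (by decide)
    simp only [Fin.mk_one] at *
    omega

/-- The sections vanishing at a point have codimension one in a lattice. -/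
theorem finrank_pointLattice (N : LB D K) (i : Fin 2) (σ : D.A K i →ₐ[K] K) :
    Module.finrank K ((N.L i) ⧸ (N.pointLattice i σ).comap (N.L i).subtype) = 1 := by
  have hI : (RingHom.ker σ : Ideal (D.A K i)) ≠ ⊥ := fun h => by
    have := congrArg (D.tR K i - algebraMap K _ (σ (D.tR K i)) ∈ ·) h
    simp only [RingHom.mem_ker, map_sub, AlgHom.commutes, Algebra.algebraMap_self_apply, sub_self,
      Submodule.mem_bot, eq_iff_iff, true_iff, sub_eq_zero] at this
    have hX : (Polynomial.X : Polynomial K) = Polynomial.C (σ (D.tR K i)) :=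
      CurveData.aeval_tR_injective i (by simpa using this)
    exact Polynomial.X_ne_C _ hX
  have he : (N.pointLattice i σ).comap (N.L i).subtype =
      (RingHom.ker σ : Ideal (D.A K i)) • (⊤ : Submodule (D.A K i) (N.L i)) := by
    apply Submodule.map_injective_of_injective (N.L i).subtype_injective
    rw [Submodule.map_smul'', Submodule.map_top, Submodule.range_subtype,
      Submodule.map_comap_subtype]
    exact inf_eq_right.mpr (Submodule.smul_le_right)
  rw [he, finrank_quotient_smul_top hI, CurveData.finrank_quotient_ker]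

end LB

end Fermat.Agent.Jac

end
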