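import Fermat.Agent.Jac.Cohom

/-!
# The chart rings over a field: domains, finite quotients, localisation
-/

set_option autoImplicit false

universe u

noncomputable section

open TensorProduct

namespace Fermat.Agent.Jac

variable {k : Type u} [Field k] {D : CurveData k}

namespace CurveData

variable {K : Type u} [Field K] [Algebra k K]

instance isDomainA (i : Fin 2) : IsDomain (D.A K i) := D.isDomain K i

instance isDomainA01 : IsDomain (D.A01 K) := by
  have hu := fun n => (isUnit_tR (D := D) (R := K) 0).pow n
  have : Nontrivial (D.A01 K) := (D.resR_injective K 0).nontrivial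
  have : NoZeroDivisors (D.A01 K) := ⟨fun {x y} hxy => by
    obtain ⟨n, a, ha⟩ := D.exists_pow_uR_mul K 0 x
    obtain ⟨m, b, hb⟩ := D.exists_pow_uR_mul K 0 y
    have hab : a * b = 0 := D.resR_injective K 0 (by
      rw [map_mul, ha, hb, map_zero, mul_mul_mul_comm, hxy, mul_zero])
    rcases mul_eq_zero.mp hab with rfl | rfl
    · exact Or.inl ((hu n).mul_right_eq_zero.mp (ha.symm.trans (map_zero _)))
    · exact Or.inr ((hu m).mul_right_eq_zero.mp (hb.symm.trans (map_zero _)))⟩
  exact NoZeroDivisors.to_isDomain _

/-- The coordinates of the charts are nonzero. -/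
theorem tR_ne_zero (i : Fin 2) : D.tR K i ≠ 0 := fun h =>
  not_isUnit_zero (M₀ := D.A01 K) (by simpa [h] using isUnit_tR (D := D) (R := K) i)

/-- The coordinate of a chart is transcendental over the field. -/
theorem aeval_tR_injective (i : Fin 2) :
    Function.Injective (Polynomial.aeval (R := K) (D.tR K i)) := by
  have h : LinearIndependent k fun n : ℕ => D.t i ^ n := by
    have h' := (Polynomial.basisMonomials k).linearIndependent.map'
      (Polynomial.aeval (R := k) (D.t i)).toLinearMap
      (LinearMap.ker_eq_bot.mpr (D.aeval_t_injective i))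
    refine (linearIndependent_equiv' (Equiv.refl ℕ) ?_).mp h'
    funext n
    simp [Polynomial.aeval_monomial]
  have hK : LinearIndependent K fun n : ℕ => (1 : K) ⊗ₜ[k] (D.t i ^ n) :=
    Module.Flat.linearIndependent_one_tmul h
  refine (injective_iff_map_eq_zero _).mpr fun f hf => ?_
  rw [Polynomial.aeval_eq_sum_range] at hf
  simp only [tR, Algebra.TensorProduct.tmul_pow, one_pow] at hf
  have := linearIndependent_iff'.mp hK _ _ hf
  ext n
  by_cases hn : n ∈ Finset.range (f.natDegree + 1)
  · simpa using this n hn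
  · rw [Polynomial.coeff_zero, Polynomial.coeff_eq_zero_of_natDegree_lt]
    simp only [Finset.mem_range, not_lt] at hn
    omega

/-- The chart ring over a field is finite over the polynomials in the coordinate. -/
theorem aeval_tR_finite (i : Fin 2) : (Polynomial.aeval (R := K) (D.tR K i)).toRingHom.Finite := by
  let _ := (Polynomial.aeval (R := k) (D.t i)).toRingHom.toAlgebra
  have : Module.Finite (Polynomial k) (D.B i) := D.aeval_t_finite i
  obtain ⟨s, hs⟩ := ‹Module.Finite (Polynomial k) (D.B i)›
  let _ := (Polynomial.aeval (R := K) (D.tR K i)).toRingHom.toAlgebra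
  classical
  refine ⟨s.image fun b => (1 : K) ⊗ₜ b, Submodule.eq_top_iff'.mpr fun x => ?_⟩
  rw [Finset.coe_image]
  induction x using TensorProduct.induction_on with
  | zero => exact zero_mem _
  | add x y hx hy => exact add_mem hx hy
  | tmul a b =>
    have hb : b ∈ Submodule.span (Polynomial k) (s : Set (D.B i)) := hs ▸ Submodule.mem_top
    induction hb using Submodule.span_induction with
    | mem y hy =>
      have : a ⊗ₜ[k] y = Polynomial.C a • ((1 : K) ⊗ₜ[k] y : D.A K i) := by
        rw [Algebra.smul_def]
        show _ = Polynomial.aeval (D.tR K i) (Polynomial.C a) * _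
        simp
      rw [this]
      exact Submodule.smul_mem _ _ (Submodule.subset_span ⟨y, hy, rfl⟩)
    | zero => rw [TensorProduct.tmul_zero]; exact zero_mem _
    | add y z _ _ hy hz => rw [TensorProduct.tmul_add]; exact add_mem (hy) (hz)
    | smul f y _ hy =>
      have : a ⊗ₜ[k] (f • y) = f.map (algebraMap k K) • (a ⊗ₜ[k] y : D.A K i) := by
        rw [Algebra.smul_def, Algebra.smul_def]
        show a ⊗ₜ[k] (Polynomial.aeval (D.t i) f * y) =
          Polynomial.aeval (D.tR K i) (f.map (algebraMap k K)) * (a ⊗ₜ[k] y)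
        rw [Polynomial.aeval_map_algebraMap, tR, ← Algebra.TensorProduct.includeRight_apply,
          Polynomial.aeval_algHom_apply, Algebra.TensorProduct.includeRight_apply,
          Algebra.TensorProduct.tmul_mul_tmul, one_mul]
      rw [this]
      exact Submodule.smul_mem _ _ hy

/-- A nonzero ideal of a chart ring has finite codimension and meets the polynomials. -/
theorem exists_aeval_mem {i : Fin 2} {I : Ideal (D.A K i)} (hI : I ≠ ⊥) :
    ∃ f : Polynomial K, f ≠ 0 ∧ Polynomial.aeval (D.tR K i) f ∈ I := by
  let _ := (Polynomial.aeval (R := K) (D.tR K i)).toRingHom.toAlgebra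
  have : Module.Finite (Polynomial K) (D.A K i) := aeval_tR_finite i
  obtain ⟨x, hx, hx0⟩ := (Submodule.ne_bot_iff _).mp hI
  have h := Ideal.comap_ne_bot_of_integral_mem (R := Polynomial K) hx0 hx
    (Algebra.IsIntegral.isIntegral x)
  obtain ⟨f, hf, hf0⟩ := (Submodule.ne_bot_iff _).mp h
  exact ⟨f, hf0, hf⟩

/-- A nonzero ideal of a chart ring has finite codimension over the field. -/
theorem finiteDimensional_quotient {i : Fin 2} {I : Ideal (D.A K i)} (hI : I ≠ ⊥) :
    FiniteDimensional K (D.A K i ⧸ I) := by
  obtain ⟨f, hf0, hf⟩ := exists_aeval_mem hI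
  let φ : Polynomial K →ₐ[K] D.A K i ⧸ I :=
    (Ideal.Quotient.mkₐ K I).comp (Polynomial.aeval (D.tR K i))
  have hfin : φ.Finite :=
    (RingHom.Finite.of_surjective _ Ideal.Quotient.mk_surjective).comp (aeval_tR_finite i)
  have hker : Ideal.span {f} ≤ RingHom.ker φ := by
    rw [Ideal.span_le, Set.singleton_subset_iff]
    exact Ideal.Quotient.eq_zero_iff_mem.mpr hf
  let ψ : Polynomial K ⧸ Ideal.span {f} →ₐ[K] D.A K i ⧸ I :=
    Ideal.Quotient.liftₐ _ φ fun a ha => hker ha
  have hψ : ψ.toRingHom.Finite := RingHom.Finite.of_comp_finite (f := Ideal.Quotient.mk _) (by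
    rw [show ψ.toRingHom.comp (Ideal.Quotient.mk _) = φ.toRingHom from rfl]; exact hfin)
  have : Module.Finite K (Polynomial K ⧸ Ideal.span {f}) :=
    (AdjoinRoot.powerBasis (f := f) hf0).finite
  have hK : RingHom.Finite (algebraMap K (D.A K i ⧸ I)) := by
    rw [← ψ.comp_algebraMap]
    exact hψ.comp (RingHom.finite_algebraMap.mpr this)
  exact RingHom.finite_algebraMap.mp hK

/-- Maximal ideals of the chart rings over an algebraically closed field are points. -/
theorem exists_point [IsAlgClosed K] {i : Fin 2} (m : Ideal (D.A K i)) [hm : m.IsMaximal] :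
    ∃ σ : D.A K i →ₐ[K] K, RingHom.ker σ = m := by
  have hne : m ≠ ⊥ := fun h => by
    have hf : IsField (D.A K i) := Ring.isField_iff_maximal_bot.mpr (h ▸ hm)
    let _ := (Polynomial.aeval (R := K) (D.tR K i)).toRingHom.toAlgebra
    have : Module.Finite (Polynomial K) (D.A K i) := aeval_tR_finite i
    exact Polynomial.not_isField K
      (isField_of_isIntegral_of_isField (aeval_tR_injective i) hf)
  have := finiteDimensional_quotient hne
  let _ := Ideal.Quotient.field m
  let e : K ≃ₐ[K] D.A K i ⧸ m := AlgEquiv.ofBijective (Algebra.ofId K _)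
    (IsAlgClosed.algebraMap_bijective_of_isIntegral)
  refine ⟨e.symm.toAlgHom.comp (Ideal.Quotient.mkₐ K m), ?_⟩
  ext x
  simp [RingHom.mem_ker, Ideal.Quotient.eq_zero_iff_mem]

theorem finrank_quotient_ker {i : Fin 2} (σ : D.A K i →ₐ[K] K) :
    Module.finrank K (D.A K i ⧸ RingHom.ker σ) = 1 :=
  (Ideal.quotientKerAlgEquivOfSurjective (f := σ) fun a => ⟨algebraMap K _ a,
      σ.commutes a⟩).toLinearEquiv.finrank_eq.trans
    (Module.finrank_self K)

theorem isMaximal_ker {i : Fin 2} (σ : D.A K i →ₐ[K] K) : (RingHom.ker σ).IsMaximal :=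
  RingHom.ker_isMaximal_of_surjective σ fun a => ⟨algebraMap K _ a, σ.commutes a⟩

/-- The degree of the coordinate does not change under extension of the field. -/
theorem span_tR_finrank (i : Fin 2) :
    Module.finrank K (D.A K i ⧸ Ideal.span {D.tR K i}) =
      Module.finrank k (D.B i ⧸ Ideal.span {D.t i}) := by
  let S : Submodule k (D.B i) := (Ideal.span {D.t i}).restrictScalars k
  let π : D.A K i →ₗ[K] K ⊗[k] (D.B i ⧸ S) := S.mkQ.baseChange K
  have hsurj : Function.Surjective π := LinearMap.lTensor_surjective K S.mkQ_surjective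
  have hker : LinearMap.ker π = (Ideal.span {D.tR K i}).restrictScalars K := by
    refine le_antisymm (fun x hx => ?_) fun x hx => ?_
    · have hex : Function.Exact (S.subtype.lTensor K) (S.mkQ.lTensor K) :=
        lTensor_exact K (LinearMap.exact_subtype_mkQ S) S.mkQ_surjective
      obtain ⟨y, rfl⟩ := (hex x).mp hx
      clear hx
      induction y using TensorProduct.induction_on with
      | zero => rw [map_zero]; exact zero_mem _
      | add y z hy hz => rw [map_add]; exact add_mem hy hz
      | tmul a b =>
        obtain ⟨c, hc⟩ := Ideal.mem_span_singleton'.mp b.2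
        exact Ideal.mem_span_singleton'.mpr ⟨a ⊗ₜ c, by
          rw [tR, Algebra.TensorProduct.tmul_mul_tmul, mul_one, hc]; rfl⟩
    · obtain ⟨c, rfl⟩ := Ideal.mem_span_singleton'.mp hx
      clear hx
      induction c using TensorProduct.induction_on with
      | zero => rw [zero_mul]; exact zero_mem _
      | add y z hy hz => rw [add_mul]; exact add_mem hy hz
      | tmul a b =>
        rw [LinearMap.mem_ker, tR, Algebra.TensorProduct.tmul_mul_tmul, mul_one]
        show a ⊗ₜ[k] S.mkQ (b * D.t i) = 0
        rw [Submodule.mkQ_apply, (Submodule.Quotient.mk_eq_zero S).mpr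
          (Ideal.mem_span_singleton'.mpr ⟨b, rfl⟩ : b * D.t i ∈ S), TensorProduct.tmul_zero]
  have e := (Submodule.quotEquivOfEq _ _ hker.symm).trans (π.quotKerEquivOfSurjective hsurj)
  exact (Submodule.Quotient.restrictScalarsEquiv K (Ideal.span {D.tR K i})).symm.finrank_eq.trans
    (e.finrank_eq.trans (Module.finrank_baseChange.trans
      (Submodule.Quotient.restrictScalarsEquiv k (Ideal.span {D.t i})).finrank_eq))

/-- The degree of the divisor of poles of the first coordinate. -/
def _root_.Fermat.Agent.Jac.CurveData.dInf (D : CurveData k) : ℕ :=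
  Module.finrank k (D.B 1 ⧸ Ideal.span {D.t 1})

/-- The degree at infinity is positive. -/
theorem _root_.Fermat.Agent.Jac.CurveData.dInf_pos (D : CurveData k) : 0 < D.dInf := by
  have hne : Ideal.span {D.t 1} ≠ ⊤ := fun h => by
    let _ := (Polynomial.aeval (R := k) (D.t 1)).toRingHom.toAlgebra
    have : Module.Finite (Polynomial k) (D.B 1) := D.aeval_t_finite 1
    refine Polynomial.not_isUnit_X (R := k) ?_
    have : IsLocalHom (algebraMap (Polynomial k) (D.B 1)) :=
      (algebraMap_isIntegral_iff.mpr inferInstance).isLocalHom (D.aeval_t_injective 1)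
    refine IsUnit.of_map (algebraMap (Polynomial k) (D.B 1)) _ ?_
    show IsUnit (Polynomial.aeval (D.t 1) Polynomial.X)
    rw [Polynomial.aeval_X]
    exact Ideal.span_singleton_eq_top.mp h
  have := CurveData.finiteDimensional_quotient (D := D) (K := k) (I := Ideal.span {D.tR k 1})
    (by simpa using CurveData.tR_ne_zero (D := D) (K := k) 1)
  have : Nontrivial (D.B 1 ⧸ Ideal.span {D.t 1}) := Ideal.Quotient.nontrivial_iff.mpr hne
  have : FiniteDimensional k (D.B 1 ⧸ Ideal.span {D.t 1}) := by
    have e : (D.A k 1 ⧸ Ideal.span {D.tR k 1}) ≃ₐ[k] (D.B 1 ⧸ Ideal.span {D.t 1}) :=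
      Ideal.quotientEquivAlg _ _ (Algebra.TensorProduct.lid k (D.B 1)) (by
        rw [Ideal.map_span, Set.image_singleton, tR]
        simp)
    exact Module.Finite.equiv e.toLinearEquiv
  exact Module.finrank_pos

end CurveData

namespace LB

variable {R : Type u} [CommRing R] [Algebra k R] (L L' : LB D R)

/-- The extension of a map between lattices lies in the lattice of homomorphisms. -/
theorem extendLattice_subtype_mem (i : Fin 2) (g : L.L i →ₗ[D.A R i] L'.L i) :
    (toMap.symm (L.extendLattice ((L'.L i).subtype ∘ₗ g)) : (L.hom L').M) ∈ (L.hom L').L i :=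
  fun m hm => by
  show L.extendLattice ((L'.L i).subtype ∘ₗ g) m ∈ L'.L i
  exact (L.extendLattice_apply_mem ((L'.L i).subtype ∘ₗ g) hm).symm ▸ (g ⟨m, hm⟩).2

end LB

end Fermat.Agent.Jac

end
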