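import Fermat.Agent.Jac.Field.Quot

/-!
# Euler characteristics of line bundles over a field and maps between them

For an injective map of bundles the Euler characteristic grows by the length of the cokernels on the
two charts minus that on the overlap.
-/

set_option autoImplicit false

universe u

noncomputable section

open TensorProduct

namespace Fermat.Agent.Jac.LB

variable {k : Type u} [Field k] {D : CurveData k}

section General

variable {R : Type u} [CommRing R] [Algebra k R] {L L' : LB D R}

/-- A map of bundles on one chart. -/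
def onChart (f : L.M →ₗ[D.A01 R] L'.M) (hf : ∀ i, ∀ m ∈ L.L i, f m ∈ L'.L i) (i : Fin 2) :
    L.L i →ₗ[D.A R i] L'.L i :=
  (f.restrictScalars (D.A R i)).restrict (hf i)

@[simp]
theorem onChart_coe (f : L.M →ₗ[D.A01 R] L'.M) (hf : ∀ i, ∀ m ∈ L.L i, f m ∈ L'.L i) (i : Fin 2)
    (x : L.L i) : (onChart f hf i x : L'.M) = f x := rfl

theorem onChart_injective {f : L.M →ₗ[D.A01 R] L'.M} {hf : ∀ i, ∀ m ∈ L.L i, f m ∈ L'.L i}
    (hinj : Function.Injective f) (i : Fin 2) : Function.Injective (onChart f hf i) :=
  fun _ _ h => Subtype.ext (hinj (congrArg Subtype.val h))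

/-- The kernel of the sum map is the module of global sections. -/
def kerCechEquiv (L : LB D R) : L.H0 ≃ₗ[R] LinearMap.ker L.cechSum :=
  LinearEquiv.ofBijective (L.toC0.codRestrict _ fun x => L.cechSum_toC0 x)
    ⟨fun _ _ h => L.toC0_injective (congrArg Subtype.val h), fun ⟨⟨a, b⟩, h⟩ => by
      have e : (a : L.M) = -(b : L.M) := eq_neg_of_add_eq_zero_left h
      exact ⟨⟨(a : L.M), a.2, e ▸ neg_mem b.2⟩, Subtype.ext (Prod.ext (Subtype.ext rfl)
        (Subtype.ext (neg_eq_iff_eq_neg.mpr e)))⟩⟩

theorem range_cech (L : LB D R) : LinearMap.range L.cechSum = L.boundary := by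
  rw [cechSum, LinearMap.range_coprod, Submodule.range_subtype, Submodule.range_subtype, boundary]

end General

variable {K : Type u} [Field K] [Algebra k K] {L L' : LB D K}

theorem chi_eq_index (L : LB D K) : L.chi = L.cechSum.index := by
  rw [LinearMap.index_eq_finrank_sub, ← L.kerCechEquiv.finrank_eq, L.range_cech]
  rfl

instance nontrivial_chart (L : LB D K) (i : Fin 2) : Nontrivial (L.L i) := by
  by_contra h
  rw [not_nontrivial_iff_subsingleton] at h
  have h1 : (1 : D.A K i) = 0 :=
    (Module.Invertible.toModuleEnd_bijective (D.A K i) (L.L i)).injective (LinearMap.ext fun x =>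
      Subsingleton.elim _ _)
  exact one_ne_zero h1

theorem exists_ne_zero (L : LB D K) (i : Fin 2) : ∃ x : L.L i, (x : L.M) ≠ 0 := by
  obtain ⟨x, hx⟩ := exists_ne (0 : L.L i)
  exact ⟨x, fun h => hx (Subtype.ext h)⟩

variable (f : L.M →ₗ[D.A01 K] L'.M) (hf : ∀ i, ∀ m ∈ L.L i, f m ∈ L'.L i)

/-- The length of the cokernel on a chart. -/
def defect (i : Fin 2) : ℕ := Module.finrank K (L'.L i ⧸ LinearMap.range (onChart f hf i))

/-- The length of the cokernel on the overlap. -/
def defect01 : ℕ := Module.finrank K (L'.M ⧸ LinearMap.range f)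

/-- The cokernel on a chart maps to the cokernel on the overlap. -/
def toOverlap (i : Fin 2) :
    (L'.L i ⧸ LinearMap.range (onChart f hf i)) →ₗ[K] (L'.M ⧸ LinearMap.range f) :=
  ((LinearMap.range (onChart f hf i)).mapQ ((LinearMap.range f).restrictScalars (D.A K i))
    (L'.L i).subtype
    (by rintro _ ⟨x, rfl⟩; exact ⟨(x : L.M), rfl⟩)).restrictScalars K

theorem toOverlap_mk (i : Fin 2) (x : L'.L i) :
    toOverlap f hf i (Submodule.Quotient.mk x) = Submodule.Quotient.mk (x : L'.M) := rfl

variable {f hf} (hinj : Function.Injective f)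
include hinj hf

theorem finite_coker (i : Fin 2) :
    FiniteDimensional K (L'.L i ⧸ LinearMap.range (onChart f hf i)) := by
  obtain ⟨x, hx⟩ := L.exists_ne_zero i
  refine finite_quotient_of_mem (σ := onChart f hf i x) (fun h => hx ?_) ⟨x, rfl⟩
  exact hinj ((congrArg Subtype.val h).trans (map_zero f).symm)

theorem toOverlap_surjective (i : Fin 2) : Function.Surjective (toOverlap f hf i) := by
  have := finite_coker (hf := hf) hinj i
  set W := LinearMap.range (toOverlap f hf i)
  let μ : (L'.M ⧸ LinearMap.range f) →ₗ[K] (L'.M ⧸ LinearMap.range f) :=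
    (LinearMap.lsmul (D.A01 K) _ (algebraMap (D.A K i) (D.A01 K) (D.tR K i))).restrictScalars K
  have hμmk :
      ∀ m : L'.M, μ (Submodule.Quotient.mk m) = Submodule.Quotient.mk (D.tR K i • m) := fun m => by
    rw [← algebraMap_smul (D.A01 K) (D.tR K i) m]
    rfl
  have hμinj : Function.Injective μ := fun x y h =>
    (CurveData.isUnit_tR (D := D) (R := K) i).smul_left_cancel.mp h
  have hW : ∀ w ∈ W, μ w ∈ W := by
    rintro _ ⟨q, rfl⟩
    obtain ⟨x, rfl⟩ := Submodule.Quotient.mk_surjective _ q
    exact ⟨Submodule.Quotient.mk (D.tR K i • x), by rw [toOverlap_mk, toOverlap_mk, hμmk]; rfl⟩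
  have hbij : Function.Surjective (μ.restrict hW) :=
    LinearMap.injective_iff_surjective.mp fun x y h => Subtype.ext (hμinj (congrArg Subtype.val h))
  intro q
  obtain ⟨m, rfl⟩ := Submodule.Quotient.mk_surjective _ q
  obtain ⟨n, hn⟩ := L'.exists_uR_pow_smul_mem i m
  rw [L'.uR_pow_smul] at hn
  show Submodule.Quotient.mk m ∈ W
  induction n generalizing m with
  | zero => exact ⟨Submodule.Quotient.mk ⟨m, by simpa using hn⟩, rfl⟩
  | succ n ih =>
    rw [pow_succ, mul_smul] at hn
    obtain ⟨⟨w, hw⟩, he⟩ := hbij ⟨_, ih _ hn⟩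
    have e : w = Submodule.Quotient.mk m := hμinj ((congrArg Subtype.val he).trans (hμmk m).symm)
    exact e ▸ hw

theorem finite_coker01 : FiniteDimensional K (L'.M ⧸ LinearMap.range f) := by
  have := fun i => finite_coker (hf := hf) hinj i
  exact Module.Finite.of_surjective _ (toOverlap_surjective (hf := hf) hinj 0)

theorem defect01_le (i : Fin 2) : defect01 f ≤ defect f hf i :=
  have := finite_coker (hf := hf) hinj i
  LinearMap.finrank_le_finrank_of_surjective (f := toOverlap f hf i) (toOverlap_surjective hinj i)

theorem defect_eq_of_saturated (i : Fin 2)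
    (h : ∀ m ∈ L'.L i, m ∈ LinearMap.range f → ∃ x ∈ L.L i, f x = m) :
    defect f hf i = defect01 f := by
  refine LinearEquiv.finrank_eq (LinearEquiv.ofBijective (toOverlap f hf i) ⟨?_,
    toOverlap_surjective hinj i⟩)
  refine (injective_iff_map_eq_zero _).mpr fun q hq => ?_
  obtain ⟨x, rfl⟩ := Submodule.Quotient.mk_surjective _ q
  rw [toOverlap_mk, Submodule.Quotient.mk_eq_zero] at hq
  obtain ⟨y, hy, e⟩ := h x x.2 hq
  exact (Submodule.Quotient.mk_eq_zero _).mpr ⟨⟨y, hy⟩, Subtype.ext e⟩

/-- Euler characteristics across an injective map differ by the defects in the charts and the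
overlap. -/
theorem chi_eq_add : L'.chi = L.chi + defect f hf 0 + defect f hf 1 - defect01 f := by
  have h0 := finite_coker (hf := hf) hinj 0
  have h1 := finite_coker (hf := hf) hinj 1
  have h01 := finite_coker01 (hf := hf) hinj
  have := L.finite_H0_field
  have := L'.finite_H0_field
  have := L.finite_H1
  have := L'.finite_H1
  -- Compare the Čech complexes through the injective map `F` on pairs of lattices.
  let F : L.C0 →ₗ[K] L'.C0 :=
    ((onChart f hf 0).restrictScalars K).prodMap ((onChart f hf 1).restrictScalars K)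
  have hsq : f.restrictScalars K ∘ₗ L.cechSum = L'.cechSum ∘ₗ F := by
    refine LinearMap.ext fun x => ?_
    show f ((x.1 : L.M) + x.2) = f (x.1 : L.M) + f (x.2 : L.M)
    exact map_add f _ _
  have hFinj : Function.Injective F := fun x y h =>
    Prod.ext (onChart_injective (hf := hf) hinj 0 (congrArg Prod.fst h))
      (onChart_injective (hf := hf) hinj 1 (congrArg Prod.snd h))
  -- Its cokernel is the product of the cokernels in the charts.
  let e : (L'.C0 ⧸ LinearMap.range F) ≃ₗ[K]
      ((L'.L 0 ⧸ (LinearMap.range (onChart f hf 0)).restrictScalars K) ×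
        (L'.L 1 ⧸ (LinearMap.range (onChart f hf 1)).restrictScalars K)) :=
    (Submodule.quotEquivOfEq _ _ (by
      rw [LinearMap.ker_prodMap, Submodule.ker_mkQ, Submodule.ker_mkQ]
      exact LinearMap.range_prodMap ((onChart f hf 0).restrictScalars K)
        ((onChart f hf 1).restrictScalars K))).trans
      ((((LinearMap.range (onChart f hf 0)).restrictScalars K).mkQ.prodMap
        ((LinearMap.range (onChart f hf 1)).restrictScalars K).mkQ).quotKerEquivOfSurjective
          (Prod.map_surjective.mpr ⟨Submodule.mkQ_surjective _, Submodule.mkQ_surjective _⟩))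
  have hq : ∀ i, Module.finrank K (L'.L i ⧸ (LinearMap.range (onChart f hf i)).restrictScalars K) =
      defect f hf i := fun i =>
    (Submodule.Quotient.restrictScalarsEquiv K (LinearMap.range (onChart f hf i))).finrank_eq
  have hfin : ∀ i, FiniteDimensional K
      (L'.L i ⧸ (LinearMap.range (onChart f hf i)).restrictScalars K) :=
    fun i => have := finite_coker (hf := hf) hinj i
      Module.Finite.equiv (Submodule.Quotient.restrictScalarsEquiv K
        (LinearMap.range (onChart f hf i))).symm
  have := hfin 0
  have := hfin 1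
  have hfF : FiniteDimensional K (L'.C0 ⧸ LinearMap.range F) := Module.Finite.equiv e.symm
  have hkF : FiniteDimensional K (LinearMap.ker F) := by
    rw [LinearMap.ker_eq_bot.mpr hFinj]; infer_instance
  have e01 : (L'.M ⧸ LinearMap.range (f.restrictScalars K)) ≃ₗ[K] L'.M ⧸ LinearMap.range f :=
    Submodule.Quotient.restrictScalarsEquiv K (LinearMap.range f)
  have hf01 : FiniteDimensional K (L'.M ⧸ LinearMap.range (f.restrictScalars K)) :=
    Module.Finite.equiv e01.symm
  have hkf : FiniteDimensional K (LinearMap.ker (f.restrictScalars K)) := by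
    rw [LinearMap.ker_eq_bot.mpr
      (show Function.Injective (f.restrictScalars K) from hinj)]; infer_instance
  have : FiniteDimensional K (LinearMap.ker L.cechSum) := Module.Finite.equiv L.kerCechEquiv
  have : FiniteDimensional K (LinearMap.ker L'.cechSum) := Module.Finite.equiv L'.kerCechEquiv
  have : FiniteDimensional K (L.M ⧸ LinearMap.range L.cechSum) := by
    rw [L.range_cech]; infer_instance
  have : FiniteDimensional K (L'.M ⧸ LinearMap.range L'.cechSum) := by
    rw [L'.range_cech]; infer_instance
  -- The indices of the two composites agree.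
  have h := congrArg LinearMap.index hsq
  rw [LinearMap.index_comp, LinearMap.index_comp, ← chi_eq_index, ← chi_eq_index,
    LinearMap.index_of_injective hFinj,
    LinearMap.index_of_injective (f := f.restrictScalars K) hinj,
    e.finrank_eq, Module.finrank_prod, hq, hq, e01.finrank_eq] at h
  rw [defect01]
  push_cast at h
  linarith

/-- An injective map does not lower the Euler characteristic. -/
theorem chi_le : L.chi ≤ L'.chi := by
  have h := chi_eq_add (hf := hf) hinj
  have h1 := defect01_le (hf := hf) hinj 1
  omega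

theorem surjective_of_chi_eq (h : L'.chi = L.chi) :
    Function.Surjective f ∧ ∀ i, Function.Surjective (onChart f hf i) := by
  have e := chi_eq_add (hf := hf) hinj
  have h0 := defect01_le (hf := hf) hinj 0
  have h1 := defect01_le (hf := hf) hinj 1
  have hz : ∀ i, defect f hf i = 0 :=
    fun i => by fin_cases i <;> simp only [Fin.zero_eta, Fin.mk_one] <;> omega
  refine ⟨?_, fun i => ?_⟩
  · have := finite_coker01 (hf := hf) hinj
    have h01 : defect01 f = 0 := by have := hz 0; omega
    rw [← LinearMap.range_eq_top]
    exact Submodule.Quotient.subsingleton_iff.mp (Module.finrank_zero_iff.mp h01)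
  · have := finite_coker (hf := hf) hinj i
    rw [← LinearMap.range_eq_top]
    exact Submodule.Quotient.subsingleton_iff.mp (Module.finrank_zero_iff.mp (hz i))

end Fermat.Agent.Jac.LB

end
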