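import Fermat.Agent.Jac.Field.Points

/-!
# Bundles in general position: removing points over `k` without creating first cohomology
-/

set_option autoImplicit false

universe u

noncomputable section

open TensorProduct

namespace Fermat.Agent.Jac.LB

variable {k : Type u} [Field k] {D : CurveData k} {K : Type u} [Field K] [Algebra k K]

/-- No first cohomology, and some homomorphism is nonzero at each point over the zeros of the
second coordinate. -/
def InGeneralPosition (ξ N : LB D K) : Prop :=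
  Subsingleton (ξ.hom N).H1 ∧ ∀ σ : D.A K 1 →ₐ[K] K, σ (D.tR K 1) = 0 →
    ∃ s ∈ (ξ.hom N).H0, ∃ x ∈ ξ.L 1, toMap s x ∉ N.pointLattice 1 σ

/-- Twisting down at a point lowers the Euler characteristic by one. -/
theorem chi_subPoint (N : LB D K) (P : (i : Fin 2) × (D.A K i →ₐ[K] K)) :
    (N.subPoint P).chi = N.chi - 1 := by
  rw [subPoint, chi_subBundle, finrank_pointLattice]
  rfl

/-- Without first cohomology the global sections have dimension the Euler characteristic. -/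
theorem h0_eq_of_subsingleton (L : LB D K) [Subsingleton L.H1] : (L.h0 : ℤ) = L.chi := by
  rw [chi, show L.h1 = 0 from Module.finrank_zero_of_subsingleton]
  simp

/-- The sections of a homomorphism bundle vanishing at a point. -/
def vanishing (ξ N : LB D K) (σ : D.A K 1 →ₐ[K] K) : Submodule K (ξ.hom N).M :=
  (ξ.hom (N.subPoint ⟨1, σ⟩)).H0.map ((homSubPoint ξ N ⟨1, σ⟩).restrictScalars K)

theorem mem_vanishing {ξ N : LB D K} {σ : D.A K 1 →ₐ[K] K} {s : (ξ.hom N).M} :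
    s ∈ vanishing ξ N σ ↔ s ∈ (ξ.hom N).H0 ∧ ∀ x ∈ ξ.L 1, toMap s x ∈ N.pointLattice 1 σ := by
  constructor
  · rintro ⟨s', hs', rfl⟩
    exact homSubPoint_mem _ hs'
  · rintro ⟨hs, hv⟩
    obtain ⟨s', hs', e⟩ := exists_factor hs ⟨1, σ⟩ hv
    exact ⟨s', hs', LinearMap.ext fun x => e x⟩

theorem finrank_vanishing (ξ N : LB D K) (σ : D.A K 1 →ₐ[K] K) :
    Module.finrank K (vanishing ξ N σ) = (ξ.hom (N.subPoint ⟨1, σ⟩)).h0 :=
  ((Submodule.equivMapOfInjective ((homSubPoint ξ N ⟨1, σ⟩).restrictScalars K)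
    (homSubPoint_injective ξ ⟨1, σ⟩) _).finrank_eq).symm

variable [IsAlgClosed k] [IsAlgClosed K]

omit [IsAlgClosed k] [IsAlgClosed K] in
theorem chi_hom_subPoint (ξ N : LB D K) (P : (i : Fin 2) × (D.A K i →ₐ[K] K)) :
    (ξ.hom (N.subPoint P)).chi = (ξ.hom N).chi - 1 := by
  rw [chi_hom D.dInf_pos, chi_hom D.dInf_pos, chi_subPoint]
  ring

omit [IsAlgClosed k] [IsAlgClosed K] in
/-- Where some section does not vanish, the sections vanishing form a hyperplane. -/
theorem vanishing_hyperplane (ξ N : LB D K) [Subsingleton (ξ.hom N).H1] (σ : D.A K 1 →ₐ[K] K)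
    (h : ∃ s ∈ (ξ.hom N).H0, s ∉ vanishing ξ N σ) :
    Module.finrank K (vanishing ξ N σ) + 1 = (ξ.hom N).h0 ∧
      Subsingleton (ξ.hom (N.subPoint ⟨1, σ⟩)).H1 := by
  have := (ξ.hom N).finite_H0_field
  obtain ⟨s, hs, hsV⟩ := h
  have hlt : Module.finrank K (vanishing ξ N σ) < (ξ.hom N).h0 :=
    Submodule.finrank_lt_finrank_of_lt
      (lt_of_le_of_ne (fun t ht => (mem_vanishing.mp ht).1) fun e => hsV (e ▸ hs))
  have h0 := h0_eq_of_subsingleton (ξ.hom N)
  have hchi := chi_hom_subPoint ξ N ⟨1, σ⟩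
  rw [finrank_vanishing] at hlt ⊢
  have h1 : (ξ.hom (N.subPoint ⟨1, σ⟩)).h1 = 0 := by
    rw [chi] at hchi
    omega
  have := (ξ.hom (N.subPoint ⟨1, σ⟩)).finite_H1
  refine ⟨?_, Module.finrank_zero_iff.mp h1⟩
  rw [chi, h1] at hchi
  omega

omit [IsAlgClosed k] [IsAlgClosed K] in
theorem finite_infinitePoints : {σ : D.A K 1 →ₐ[K] K | σ (D.tR K 1) = 0}.Finite := by
  have := CurveData.finiteDimensional_quotient (D := D) (K := K) (I := Ideal.span {D.tR K 1})
    (by simpa using CurveData.tR_ne_zero (D := D) (K := K) 1)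
  refine (Set.finite_range fun τ : (D.A K 1 ⧸ Ideal.span {D.tR K 1}) →ₐ[K] K =>
    τ.comp (Ideal.Quotient.mkₐ K _)).subset fun σ hσ => ?_
  have hle : Ideal.span {D.tR K 1} ≤ RingHom.ker σ := by
    rw [Ideal.span_le, Set.singleton_subset_iff]
    exact hσ
  exact ⟨Ideal.Quotient.liftₐ _ σ fun a ha => hle ha, AlgHom.ext fun _ => rfl⟩

omit [IsAlgClosed k] [IsAlgClosed K] in
theorem exists_poly_vanishing {ξ N : LB D K} {s : (ξ.hom N).M} (hs : s ∈ (ξ.hom N).H0)
    (h0 : s ≠ 0) :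
    ∃ f : Polynomial K, f ≠ 0 ∧ ∀ σ : D.A K 1 →ₐ[K] K, s ∈ vanishing ξ N σ →
      f.eval (σ (D.tR K 1)) = 0 := by
  have hf : ∀ i, ∀ m ∈ ξ.L i, toMap s m ∈ N.L i := mem_H0_hom.mp hs
  set Q := LinearMap.range (onChart (toMap s) hf 1)
  obtain ⟨x, hx⟩ := ξ.exists_ne_zero 1
  set y := onChart (toMap s) hf 1 x
  have hy : y ≠ 0 := fun e =>
    hx (injective_of_ne_zero h0 ((congrArg Subtype.val e).trans (map_zero _).symm))
  obtain ⟨f, hf0, hfI⟩ := CurveData.exists_aeval_mem (content_ne_bot (A := D.A K 1) hy)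
  refine ⟨f, hf0, fun σ hσ => ?_⟩
  obtain ⟨z, hz, hzP⟩ := N.exists_not_mem_pointLattice σ
  have hmem : Polynomial.aeval (D.tR K 1) f • (⟨z, hz⟩ : N.L 1) ∈ Submodule.span (D.A K 1) {y} := by
    rw [span_singleton_eq_content]
    exact Submodule.smul_mem_smul hfI Submodule.mem_top
  obtain ⟨c, hc⟩ := Submodule.mem_span_singleton.mp hmem
  have h1 : Polynomial.aeval (D.tR K 1) f • z ∈ N.pointLattice 1 σ := by
    rw [show Polynomial.aeval (D.tR K 1) f • z = c • toMap s x from (congrArg Subtype.val hc).symm]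
    exact Submodule.smul_mem _ c ((mem_vanishing.mp hσ).2 x x.2)
  have := (N.smul_mem_pointLattice_iff hz hzP).mp h1
  rwa [← Polynomial.aeval_algHom_apply, ← Polynomial.coe_aeval_eq_eval] at *

omit [IsAlgClosed K] in
/-- There is a `k`-point with any prescribed value of the second coordinate. -/
theorem exists_point_over (a : k) :
    ∃ P : D.A k 1 →ₐ[k] k, P (D.tR k 1) = a := by
  let _ := (Polynomial.aeval (R := k) (D.tR k 1)).toRingHom.toAlgebra
  have : Module.Finite (Polynomial k) (D.A k 1) := CurveData.aeval_tR_finite 1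
  have : IsLocalHom (algebraMap (Polynomial k) (D.A k 1)) :=
    (algebraMap_isIntegral_iff.mpr inferInstance).isLocalHom (CurveData.aeval_tR_injective 1)
  have hne :
      Ideal.span {Polynomial.aeval (D.tR k 1) (Polynomial.X - Polynomial.C a)} ≠ ⊤ := fun h =>
    Polynomial.not_isUnit_X_sub_C a
      (IsUnit.of_map (algebraMap (Polynomial k) (D.A k 1)) _ (Ideal.span_singleton_eq_top.mp h))
  obtain ⟨m, hm, hle⟩ := Ideal.exists_le_maximal _ hne
  obtain ⟨P, rfl⟩ := CurveData.exists_point m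
  refine ⟨P, ?_⟩
  have := hle (Ideal.subset_span rfl)
  rw [RingHom.mem_ker, ← Polynomial.aeval_algHom_apply] at this
  simpa [sub_eq_zero] using this

omit [IsAlgClosed k] [IsAlgClosed K] in
theorem mapPoint_tR (P : D.A k 1 →ₐ[k] k) :
    (mapPoint (D := D) (Algebra.ofId k K) ⟨1, P⟩).2 (D.tR K 1) = algebraMap k K (P (D.tR k 1)) := by
  show Algebra.TensorProduct.lift (AlgHom.id K K) ((Algebra.ofId k K).comp
    ((P.restrictScalars k).comp Algebra.TensorProduct.includeRight)) (fun _ _ => mul_comm _ _)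
      ((1 : K) ⊗ₜ D.t 1) = _
  rw [Algebra.TensorProduct.lift_tmul, map_one, one_mul]
  rfl

omit [IsAlgClosed K] in
/-- One step: remove a general `k`-point. -/
theorem InGeneralPosition.step {ξ N : LB D K} (h : InGeneralPosition ξ N)
    (hchi : 2 ≤ (ξ.hom N).chi) :
    ∃ P : (i : Fin 2) × (D.A k i →ₐ[k] k),
      InGeneralPosition ξ (N.subPoint (mapPoint (Algebra.ofId k K) P)) := by
  obtain ⟨hH1, hgen⟩ := h
  have := (ξ.hom N).finite_H0_field
  have h0 := h0_eq_of_subsingleton (ξ.hom N)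
  have hex : ∀ σ ∈ {σ : D.A K 1 →ₐ[K] K | σ (D.tR K 1) = 0},
      ∃ (s : (ξ.hom N).M) (f : Polynomial K), s ∈ vanishing ξ N σ ∧ f ≠ 0 ∧
        ∀ τ : D.A K 1 →ₐ[K] K, s ∈ vanishing ξ N τ → f.eval (τ (D.tR K 1)) = 0 := by
    intro σ hσ
    obtain ⟨s, hs, x, hx, hsx⟩ := hgen σ hσ
    obtain ⟨hd, -⟩ := vanishing_hyperplane ξ N σ ⟨s, hs,
      fun hm => hsx ((mem_vanishing.mp hm).2 x hx)⟩
    have hne : vanishing ξ N σ ≠ ⊥ := fun e => by
      rw [e, finrank_bot] at hd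
      omega
    obtain ⟨t, ht, ht0⟩ := (Submodule.ne_bot_iff _).mp hne
    obtain ⟨f, hf0, hf⟩ := exists_poly_vanishing (mem_vanishing.mp ht).1 ht0
    exact ⟨t, f, ht, hf0, hf⟩
  choose! s f hsV hf0 hf using hex
  have hfin := finite_infinitePoints (D := D) (K := K)
  -- a general point over `k`
  have hpos : 0 < (ξ.hom N).h0 := by omega
  obtain ⟨s₀, hs₀, hs₀0⟩ : ∃ t ∈ (ξ.hom N).H0, t ≠ 0 := exists_section_of_chi_pos (by omega)
  obtain ⟨f₀, hf₀0, hf₀⟩ := exists_poly_vanishing hs₀ hs₀0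
  set F : Polynomial K := Polynomial.X * f₀ * ∏ σ ∈ hfin.toFinset, f σ with hF
  have hF0 : F ≠ 0 := mul_ne_zero (mul_ne_zero Polynomial.X_ne_zero hf₀0)
    (Finset.prod_ne_zero_iff.mpr fun σ hσ => hf0 σ (hfin.mem_toFinset.mp hσ))
  have : Infinite k := IsAlgClosed.instInfinite
  obtain ⟨a, ha⟩ : ∃ a : k, F.eval (algebraMap k K a) ≠ 0 := by
    by_contra! hall
    exact hF0 (Polynomial.eq_zero_of_infinite_isRoot F
      ((Set.infinite_range_of_injective (algebraMap k K).injective).mono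
        (Set.range_subset_iff.mpr hall)))
  obtain ⟨P, hP⟩ := exists_point_over (D := D) a
  refine ⟨⟨1, P⟩, ?_⟩
  obtain ⟨τ, hτ, hτt⟩ : ∃ τ : D.A K 1 →ₐ[K] K, mapPoint (Algebra.ofId k K) ⟨1, P⟩ = ⟨1, τ⟩ ∧
      τ (D.tR K 1) = algebraMap k K a :=
    ⟨_, rfl, (mapPoint_tR P).trans (by rw [hP])⟩
  rw [hτ]
  simp only [F, Polynomial.eval_mul, Polynomial.eval_X, Polynomial.eval_prod, mul_ne_zero_iff,
    Finset.prod_ne_zero_iff] at ha
  obtain ⟨⟨ha0, ha₀⟩, haσ⟩ := ha
  have hτ₀ : ∃ t ∈ (ξ.hom N).H0, t ∉ vanishing ξ N τ :=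
    ⟨s₀, hs₀, fun hm => ha₀ (hτt ▸ hf₀ τ hm)⟩
  obtain ⟨hdτ, hH1'⟩ := vanishing_hyperplane ξ N τ hτ₀
  refine ⟨hH1', fun σ hσ => ?_⟩
  obtain ⟨t₀, ht₀, x, hx, htx⟩ := hgen σ hσ
  obtain ⟨hdσ, -⟩ := vanishing_hyperplane ξ N σ ⟨t₀, ht₀,
    fun hm => htx ((mem_vanishing.mp hm).2 x hx)⟩
  obtain ⟨t, htτ, htσ⟩ : ∃ t ∈ vanishing ξ N τ, t ∉ vanishing ξ N σ := by
    by_contra! hle
    have : FiniteDimensional K (vanishing ξ N σ) :=
      Submodule.finiteDimensional_of_le (fun t ht => (mem_vanishing.mp ht).1 : _ ≤ (ξ.hom N).H0)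
    have heq : vanishing ξ N τ = vanishing ξ N σ := Submodule.eq_of_le_of_finrank_eq hle (by omega)
    exact haσ σ (hfin.mem_toFinset.mpr hσ) (hτt ▸ hf σ hσ τ (heq ▸ hsV σ hσ))
  obtain ⟨htH, htv⟩ := mem_vanishing.mp htτ
  obtain ⟨t', ht', e⟩ := exists_factor htH ⟨1, τ⟩ htv
  obtain ⟨y, hy, hyσ⟩ : ∃ y ∈ ξ.L 1, toMap t y ∉ N.pointLattice 1 σ := by
    by_contra! hall
    exact htσ (mem_vanishing.mpr ⟨htH, hall⟩)
  refine ⟨t', ht', y, hy, fun hm => hyσ ?_⟩
  rw [← e y]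
  have key : ∀ z ∈ (N.subPoint ⟨1, τ⟩).pointLattice 1 σ, z.1 ∈ N.pointLattice 1 σ := by
    intro z hz
    induction hz using Submodule.smul_induction_on' with
    | smul a ha z hz => exact Submodule.smul_mem_smul ha hz.1
    | add z _ z' _ h h' => exact add_mem h h'
  exact key _ hm

omit [IsAlgClosed K] in
/-- Points over `k` can be removed keeping general position, down to Euler characteristic one. -/
theorem InGeneralPosition.exists_points {ξ : LB D K} (m : ℕ) :
    ∀ {N : LB D K}, InGeneralPosition ξ N → (ξ.hom N).chi = m + 1 →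
      ∃ l : List ((i : Fin 2) × (D.A k i →ₐ[k] k)), l.length = m ∧
        InGeneralPosition ξ (N.subPoints (l.map (mapPoint (Algebra.ofId k K)))) := by
  induction m with
  | zero => exact fun h _ => ⟨[], rfl, h⟩
  | succ m ih =>
    intro N h hchi
    push_cast at hchi
    obtain ⟨P, hP⟩ := h.step (by omega)
    obtain ⟨l, hl, hl'⟩ := ih hP (by rw [chi_hom_subPoint]; omega)
    exact ⟨P :: l, by simp [hl], hl'⟩

omit [IsAlgClosed k] [IsAlgClosed K] in
theorem hom_twist_L (ξ N : LB D K) (n : ℕ) (i : Fin 2) :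
    (ξ.hom (N.twist n)).L i = ((ξ.hom N).twist n).L i := by
  ext ψ
  exact ⟨fun h m hm => h m hm, fun h m hm => h m hm⟩

omit [IsAlgClosed k] [IsAlgClosed K] in
/-- Twisting enough gives general position. -/
theorem inGeneralPosition_twist (ξ N : LB D K) :
    ∃ n₀, ∀ n ≥ n₀, InGeneralPosition ξ (N.twist n) := by
  -- Large twists of `hom ξ N` have no first cohomology.
  obtain ⟨n₀, hn₀⟩ := (ξ.hom N).exists_subsingleton_H1_twist
  have hbd : ∀ n, (ξ.hom (N.twist n)).boundary = ((ξ.hom N).twist n).boundary := fun n => by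
    show ((ξ.hom (N.twist n)).L 0).restrictScalars K ⊔
      ((ξ.hom (N.twist n)).L 1).restrictScalars K = _
    rw [hom_twist_L, hom_twist_L]
    rfl
  have hsub : ∀ n ≥ n₀, (ξ.hom (N.twist n)).boundary = ⊤ := fun n hn => by
    rw [hbd]
    exact Submodule.Quotient.subsingleton_iff.mp (hn₀ n hn)
  refine ⟨n₀ + 1, fun n hn => ⟨Submodule.Quotient.subsingleton_iff.mpr (hsub n (by omega)),
    fun σ hσ => ?_⟩⟩
  obtain ⟨n, rfl⟩ : ∃ j, n = j + 1 := ⟨n - 1, by omega⟩
  -- At a point at infinity build a map `f` on the chart whose value misses the point lattice.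
  obtain ⟨y, hy, hyP⟩ := (N.twist (n + 1)).exists_not_mem_pointLattice σ
  have := CurveData.isMaximal_ker σ
  obtain ⟨φ, x, hφ⟩ := exists_apply_not_mem (P := ξ.L 1) (RingHom.ker σ : Ideal (D.A K 1))
  set g : ξ.L 1 →ₗ[D.A K 1] (N.twist (n + 1)).L 1 := φ.smulRight ⟨y, hy⟩
  set f : ξ.M →ₗ[D.A01 K] N.M :=
    (ξ.extendLattice (((N.twist (n + 1)).L 1).subtype ∘ₗ g) : ξ.M →ₗ[D.A01 K]
      (N.twist (n + 1)).M)
  have hf : ∀ z ∈ ξ.L 1, f z ∈ (N.twist (n + 1)).L 1 :=
    ξ.extendLattice_subtype_mem (N.twist (n + 1)) 1 g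
  have hfx : f x ∉ (N.twist (n + 1)).pointLattice 1 σ := by
    rw [show f x = φ x • y from ξ.extendLattice_apply (((N.twist (n + 1)).L 1).subtype ∘ₗ g) x]
    exact fun h => hφ (((N.twist (n + 1)).smul_mem_pointLattice_iff hy hyP).mp h)
  have hmem : (toMap.symm f : (ξ.hom (N.twist n)).M) ∈ (ξ.hom (N.twist n)).boundary :=
    (hsub n (by omega)).symm ▸ Submodule.mem_top
  -- Split it as a Čech sum: the part in the smaller twist vanishes at the point.
  obtain ⟨a, ha, b, hb, hab⟩ := Submodule.mem_sup.mp hmem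
  have hstep : ∀ z : N.M, z ∈ (N.twist n).L 1 → z ∈ (N.twist (n + 1)).pointLattice 1 σ := by
    intro z hz
    obtain ⟨w, hw⟩ := exists_tR_pow_smul_eq (L := N) 1 1 z
    rw [pow_one] at hw
    have hw' : w ∈ (N.twist (n + 1)).L 1 := mem_twist.mpr (by
      have hz' := mem_twist.mp hz
      simp only [Fin.val_one, mul_one, ← hw, smul_smul, ← pow_succ] at hz' ⊢
      exact hz')
    rw [← hw]
    exact Submodule.smul_mem_smul (N := (N.twist (n + 1)).L 1)
      (show D.tR K 1 ∈ RingHom.ker σ from RingHom.mem_ker.mpr hσ) hw'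
  have hadd : ∀ z, toMap a z + toMap b z = f z := fun z =>
    LinearMap.congr_fun ((map_add toMap a b).symm.trans (congrArg toMap hab)) z
  have hbσ : ∀ z ∈ ξ.L 1, toMap b z ∈ (N.twist (n + 1)).pointLattice 1 σ := fun z hz =>
    hstep _ (mem_hom.mp hb z hz)
  let a' : (ξ.hom (N.twist (n + 1))).M := toMap.symm (toMap a : ξ.M →ₗ[D.A01 K] N.M)
  -- So the other part, a global section, does not.
  refine ⟨a', mem_H0_hom.mpr fun i z hz => ?_, x, x.2, fun hax => hfx ?_⟩
  · fin_cases i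
    · show toMap a z ∈ (N.twist (n + 1)).L 0
      exact mem_twist.mpr (by simpa using mem_twist.mp (mem_hom.mp ha z hz))
    · exact add_sub_cancel_right (toMap a z) (toMap b z) ▸
        (hadd z).symm ▸ sub_mem (hf z hz) ((N.twist (n + 1)).pointLattice_le_lattice _ σ (hbσ z hz))
  · exact hadd x ▸ add_mem hax (hbσ x x.2)

end Fermat.Agent.Jac.LB

end
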