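import Fermat.Agent.Jac.Field.Additive

/-!
# Points of the curve and sections vanishing at them
-/

set_option autoImplicit false

universe u

noncomputable section

open TensorProduct

namespace Fermat.Agent.Jac.LB

variable {k : Type u} [Field k] {D : CurveData k} {K : Type u} [Field K] [Algebra k K] (N : LB D K)

theorem comap_pointLattice {i : Fin 2} (σ : D.A K i →ₐ[K] K) :
    (N.pointLattice i σ).comap (N.L i).subtype =
      (RingHom.ker σ : Ideal (D.A K i)) • (⊤ : Submodule (D.A K i) (N.L i)) := by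
  apply Submodule.map_injective_of_injective (N.L i).subtype_injective
  rw [Submodule.map_smul'', Submodule.map_top, Submodule.range_subtype, Submodule.map_comap_subtype]
  exact inf_eq_right.mpr Submodule.smul_le_right

/-- At every point some local section does not vanish. -/
theorem exists_not_mem_pointLattice {i : Fin 2} (σ : D.A K i →ₐ[K] K) :
    ∃ y ∈ N.L i, y ∉ N.pointLattice i σ := by
  by_contra! h
  have := N.finrank_pointLattice i σ
  have : Subsingleton ((N.L i) ⧸ (N.pointLattice i σ).comap (N.L i).subtype) :=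
    Submodule.Quotient.subsingleton_iff.mpr (eq_top_iff.mpr fun x _ => h x x.2)
  rw [Module.finrank_zero_of_subsingleton] at *
  omega

/-- Multiplication by a function is multiplication by its value modulo the sections vanishing at the
point. -/
theorem smul_sub_mem_pointLattice {i : Fin 2} (σ : D.A K i →ₐ[K] K) (a : D.A K i) {y : N.M}
    (hy : y ∈ N.L i) : a • y - σ a • y ∈ N.pointLattice i σ := by
  rw [← algebraMap_smul (D.A K i) (σ a) y, ← sub_smul]
  exact Submodule.smul_mem_smul (by
    rw [RingHom.mem_ker, map_sub, AlgHom.commutes, Algebra.algebraMap_self_apply, sub_self]) hy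

/-- A multiple of a nonvanishing section vanishes at a point exactly when the factor does. -/
theorem smul_mem_pointLattice_iff {i : Fin 2} {σ : D.A K i →ₐ[K] K} {a : D.A K i} {y : N.M}
    (hy : y ∈ N.L i) (hy' : y ∉ N.pointLattice i σ) : a • y ∈ N.pointLattice i σ ↔ σ a = 0 := by
  refine ⟨fun h => ?_, fun h => Submodule.smul_mem_smul (by simpa [RingHom.mem_ker] using h) hy⟩
  by_contra h0
  refine hy' ?_
  have h1 : σ a • y ∈ N.pointLattice i σ := by
    simpa using sub_mem h (N.smul_sub_mem_pointLattice σ a hy)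
  have := (N.pointLattice i σ).smul_of_tower_mem (σ a)⁻¹ h1
  rwa [inv_smul_smul₀ h0] at this

/-- A proper submodule of a chart over an algebraically closed field consists of sections which
all vanish at one point. -/
theorem exists_le_point [IsAlgClosed K] {i : Fin 2} {Q : Submodule (D.A K i) (N.L i)} (hQ : Q ≠ ⊤) :
    ∃ σ : D.A K i →ₐ[K] K, ∀ x ∈ Q, (x : N.M) ∈ N.pointLattice i σ := by
  set J : Ideal (D.A K i) := Module.annihilator (D.A K i) ((N.L i) ⧸ Q) with hJ
  have hJtop : J ≠ ⊤ := fun h => hQ (by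
    have h1 : (1 : D.A K i) ∈ J := h ▸ Submodule.mem_top
    refine eq_top_iff.mpr fun x _ => (Submodule.Quotient.mk_eq_zero Q).mp ?_
    simpa using Module.mem_annihilator.mp h1 (Submodule.Quotient.mk x))
  obtain ⟨m, hm, hJm⟩ := Ideal.exists_le_maximal J hJtop
  obtain ⟨σ, hσ⟩ := CurveData.exists_point m
  refine ⟨σ, fun x hx => ?_⟩
  by_contra hxP
  have htop : (⊤ : Submodule (D.A K i) ((N.L i) ⧸ Q)) ≤ m • ⊤ := by
    rintro q -
    obtain ⟨z, rfl⟩ := Submodule.Quotient.mk_surjective _ q
    have h1 := N.finrank_pointLattice i σ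
    set S := (N.pointLattice i σ).comap (N.L i).subtype
    have hx0 : (Submodule.Quotient.mk x : (N.L i) ⧸ S) ≠ 0 := fun e =>
      hxP ((Submodule.Quotient.mk_eq_zero S).mp e)
    obtain ⟨c, hc⟩ := exists_smul_eq_of_finrank_eq_one h1 hx0 (Submodule.Quotient.mk z)
    rw [← Submodule.Quotient.mk_smul, Submodule.Quotient.eq] at hc
    have hzero : (Submodule.Quotient.mk (c • x) : (N.L i) ⧸ Q) = 0 :=
      (Submodule.Quotient.mk_eq_zero Q).mpr (Q.smul_of_tower_mem c hx)
    have hd : (c • x - z) ∈ m • (⊤ : Submodule (D.A K i) (N.L i)) := by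
      rw [← hσ, ← comap_pointLattice]; exact hc
    have := Submodule.mem_map_of_mem (f := Q.mkQ) hd
    rw [Submodule.map_smul'', Submodule.map_top, Submodule.range_mkQ, map_sub, Submodule.mkQ_apply,
      Submodule.mkQ_apply, hzero, zero_sub] at this
    exact (Submodule.neg_mem_iff _).mp this
  obtain ⟨r, hr, hr0⟩ := Submodule.exists_sub_one_mem_and_smul_eq_zero_of_fg_of_le_smul m ⊤
    Module.Finite.fg_top htop
  have hrm : r ∈ m := hJm (Module.mem_annihilator.mpr fun q => hr0 q Submodule.mem_top)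
  exact hm.ne_top ((Ideal.eq_top_iff_one m).mpr (by simpa using sub_mem hrm hr))

variable {N}

/-- An injective map between bundles of equal Euler characteristic is an isomorphism. -/
theorem isomorphic_of_chi_eq {L : LB D K} {f : L.M →ₗ[D.A01 K] N.M}
    (hf : ∀ i, ∀ m ∈ L.L i, f m ∈ N.L i) (hinj : Function.Injective f) (h : N.chi = L.chi) :
    ∃ e : L.Iso N, ∀ m, e.e m = f m := by
  obtain ⟨hs, hsi⟩ := surjective_of_chi_eq (hf := hf) hinj h
  refine ⟨⟨LinearEquiv.ofBijective f ⟨hinj, hs⟩, fun i m => ⟨fun hm => ?_, hf i m⟩⟩, fun _ => rfl⟩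
  obtain ⟨x, hx⟩ := hsi i ⟨_, hm⟩
  exact hinj (congrArg Subtype.val hx) ▸ x.2

/-- A nonzero homomorphism is injective. -/
theorem injective_of_ne_zero {L : LB D K} {s : (L.hom N).M} (h0 : s ≠ 0) :
    Function.Injective (toMap s) :=
  (injective_iff_map_eq_zero _).mpr fun x hx => by
    by_contra hx0
    exact h0 (toMap.map_eq_zero_iff.mp (eq_zero_of_apply_eq_zero hx0 hx))

theorem mem_H0_iff {L : LB D K} {s : L.M} : s ∈ L.H0 ↔ ∀ i, s ∈ L.L i :=
  ⟨fun h i => by fin_cases i; exacts [h.1, h.2], fun h => ⟨h 0, h 1⟩⟩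

/-- The global homomorphisms are those preserving both lattices. -/
theorem mem_H0_hom {L : LB D K} {s : (L.hom N).M} :
    s ∈ (L.hom N).H0 ↔ ∀ i, ∀ m ∈ L.L i, toMap s m ∈ N.L i :=
  mem_H0_iff

/-- A map vanishing at a point factors through the bundle twisted down by it. -/
theorem exists_factor {L : LB D K} {s : (L.hom N).M} (hs : s ∈ (L.hom N).H0)
    (P : (i : Fin 2) × (D.A K i →ₐ[K] K)) (hP : ∀ x ∈ L.L P.1, toMap s x ∈ N.pointLattice P.1 P.2) :
    ∃ s' : (L.hom (N.subPoint P)).M, s' ∈ (L.hom (N.subPoint P)).H0 ∧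
      ∀ x, Subtype.val (toMap s' x : (N.subPoint P).M) = toMap s x := by
  have hmem : ∀ x, toMap s x ∈ Submodule.span (D.A01 K) (N.pointLattice P.1 P.2 : Set N.M) := by
    intro x
    have hx : x ∈ Submodule.span (D.A01 K) (L.L P.1 : Set L.M) := L.span_L P.1 ▸ Submodule.mem_top
    induction hx using Submodule.span_induction with
    | mem y hy => exact Submodule.subset_span (hP y hy)
    | zero => simp
    | add y z _ _ hy hz => rw [map_add]; exact add_mem hy hz
    | smul a y _ hy => rw [map_smul]; exact Submodule.smul_mem _ a hy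
  refine ⟨toMap.symm ((toMap s).codRestrict _ hmem), ?_, fun x => rfl⟩
  exact mem_H0_hom.mpr fun j m hm => ⟨mem_H0_hom.mp hs j m hm, fun e => by subst e; exact hP m hm⟩

/-- The inclusion of homomorphisms to a bundle twisted down by a point. -/
def homSubPoint (L N : LB D K) (P : (i : Fin 2) × (D.A K i →ₐ[K] K)) :
    (L.hom (N.subPoint P)).M →ₗ[D.A01 K] (L.hom N).M :=
  LinearMap.llcomp (D.A01 K) L.M _ N.M
    (Submodule.span (D.A01 K) (N.pointLattice P.1 P.2 : Set N.M)).subtype

theorem homSubPoint_injective (L : LB D K) (P : (i : Fin 2) × (D.A K i →ₐ[K] K)) :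
    Function.Injective (homSubPoint L N P) :=
  fun _ _ h => LinearMap.ext fun x => Subtype.ext (LinearMap.congr_fun h x)

theorem homSubPoint_mem {L : LB D K} (P : (i : Fin 2) × (D.A K i →ₐ[K] K))
    {s : (L.hom (N.subPoint P)).M} (hs : s ∈ (L.hom (N.subPoint P)).H0) :
    homSubPoint L N P s ∈ (L.hom N).H0 ∧
      ∀ x ∈ L.L P.1, toMap (homSubPoint L N P s) x ∈ N.pointLattice P.1 P.2 :=
  ⟨mem_H0_hom.mpr fun j m hm => (mem_H0_hom.mp hs j m hm).1,
    fun x hx => (mem_H0_hom.mp hs P.1 x hx).2 rfl⟩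

end Fermat.Agent.Jac.LB

end
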