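import Fermat.Agent.Jac.Field.Basic

/-!
# Quotients of invertible modules over the chart rings
-/

set_option autoImplicit false

universe u

noncomputable section

open TensorProduct

namespace Fermat.Agent.Jac

/-- The values at `σ` of linear forms on `P`. -/
def content {A P : Type u} [CommRing A] [AddCommGroup P] [Module A P] (σ : P) : Ideal A :=
  LinearMap.range (LinearMap.applyₗ σ : (P →ₗ[A] A) →ₗ[A] A)

section Invertible

variable {A P N : Type u} [CommRing A] [IsDomain A] [AddCommGroup P] [Module A P]
    [Module.Invertible A P]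
  [AddCommGroup N] [Module A N]

omit [IsDomain A] [Module.Invertible A P] in
theorem mem_content {σ : P} {a : A} : a ∈ content σ ↔ ∃ φ : P →ₗ[A] A, φ σ = a := Iff.rfl

/-- In a module of rank one, `φ(σ) x = φ(x) σ`. -/
theorem apply_smul_comm (φ : P →ₗ[A] A) (σ x : P) : φ σ • x = φ x • σ := by
  obtain ⟨c, hc⟩ := (Module.Invertible.toModuleEnd_bijective A P).surjective (φ.smulRight σ)
  have h : ∀ y, c • y = φ y • σ := fun y => LinearMap.congr_fun hc y
  rcases eq_or_ne σ 0 with rfl | hσ
  · simp
  · rw [← h x, smul_left_injective A hσ (h σ)]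

omit [IsDomain A] in
/-- A nonzero element of an invertible module has nonzero content. -/
theorem content_ne_bot {σ : P} (hσ : σ ≠ 0) : (content σ : Ideal A) ≠ ⊥ := by
  intro h
  refine hσ ?_
  obtain ⟨n, f, g, hf, -, hfg⟩ := Module.Finite.exists_comp_eq_id_of_projective A P
  rw [← LinearMap.id_apply (R := A) σ, ← hfg, LinearMap.comp_apply]
  suffices g σ = 0 by rw [this, map_zero]
  ext j
  have : ((LinearMap.proj j).comp g) σ ∈ (content σ : Ideal A) := mem_content.mpr ⟨_, rfl⟩
  rw [h, Submodule.mem_bot] at this
  exact this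

/-- In an invertible module the span of an element is the content times the module. -/
theorem span_singleton_eq_content (σ : P) :
    Submodule.span A {σ} = (content σ : Ideal A) • (⊤ : Submodule A P) := by
  refine le_antisymm ((Submodule.span_singleton_le_iff_mem _ _).mpr ?_) (Submodule.smul_le.mpr ?_)
  · obtain ⟨n, f, g, hf, -, hfg⟩ := Module.Finite.exists_comp_eq_id_of_projective A P
    conv => rhs; rw [← LinearMap.id_apply (R := A) σ, ← hfg, LinearMap.comp_apply,
      pi_eq_sum_univ' (g σ)]
    rw [map_sum]
    refine Submodule.sum_mem _ fun j _ => ?_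
    rw [map_smul]
    exact Submodule.smul_mem_smul
      (mem_content.mpr ⟨(LinearMap.proj j).comp g, rfl⟩) Submodule.mem_top
  · rintro a ha x -
    obtain ⟨φ, rfl⟩ := mem_content.mp ha
    rw [apply_smul_comm]
    exact Submodule.smul_mem _ _ (Submodule.mem_span_singleton_self σ)

theorem range_applyₗ_eq_content (σ : P) :
    LinearMap.range (LinearMap.applyₗ σ : (P →ₗ[A] N) →ₗ[A] N) =
      (content σ : Ideal A) • (⊤ : Submodule A N) := by
  refine le_antisymm ?_ (Submodule.smul_le.mpr ?_)
  · rintro _ ⟨ψ, rfl⟩
    show ψ σ ∈ _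
    have h : σ ∈ (content σ : Ideal A) • (⊤ : Submodule A P) :=
      (span_singleton_eq_content (A := A) σ).le (Submodule.mem_span_singleton_self σ)
    have := Submodule.mem_map_of_mem (f := ψ) h
    rw [Submodule.map_smul''] at this
    exact Submodule.smul_mono le_rfl le_top this
  · rintro a ha x -
    obtain ⟨φ, rfl⟩ := mem_content.mp ha
    exact ⟨φ.smulRight x, rfl⟩

omit [IsDomain A] in
/-- An invertible module has linear forms outside every proper ideal. -/
theorem exists_apply_not_mem (m : Ideal A) [m.IsMaximal] :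
    ∃ (φ : P →ₗ[A] A) (x : P), φ x ∉ m := by
  by_contra! h
  obtain ⟨n, f, g, hf, -, hfg⟩ := Module.Finite.exists_comp_eq_id_of_projective A P
  have htop : (⊤ : Submodule A P) ≤ m • ⊤ := fun x _ => by
    rw [← LinearMap.id_apply (R := A) x, ← hfg, LinearMap.comp_apply, pi_eq_sum_univ' (g x),
      map_sum]
    refine Submodule.sum_mem _ fun j _ => ?_
    rw [map_smul]
    exact Submodule.smul_mem_smul (h ((LinearMap.proj j).comp g) x) Submodule.mem_top
  obtain ⟨r, hr, hr0⟩ := Submodule.exists_sub_one_mem_and_smul_eq_zero_of_fg_of_le_smul m ⊤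
    Module.Finite.fg_top htop
  have : r = 0 := (Module.Invertible.toModuleEnd_bijective A P).injective
    (LinearMap.ext fun x => by simpa using hr0 x Submodule.mem_top)
  subst this
  exact Ideal.IsMaximal.ne_top inferInstance
    ((Ideal.eq_top_iff_one m).mpr (by simpa using neg_mem hr))

/-- An invertible module modulo an ideal of finite codimension is the ring modulo the ideal. -/
theorem nonempty_quotient_equiv {A P : Type u} [CommRing A] [AddCommGroup P] [Module A P]
    [Module.Invertible A P] (K : Type u) [Field K] [Algebra K A] (I : Ideal A)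
    [FiniteDimensional K (A ⧸ I)] :
    Nonempty ((P ⧸ I • (⊤ : Submodule A P)) ≃ₗ[A] (A ⧸ I)) := by
  have : IsArtinianRing (A ⧸ I) := IsArtinianRing.of_finite K _
  obtain ⟨e⟩ : Nonempty ((A ⧸ I) ⊗[A] P ≃ₗ[A ⧸ I] (A ⧸ I)) :=
    Module.Invertible.free_iff_linearEquiv.mp inferInstance
  exact ⟨(TensorProduct.quotTensorEquivQuotSMul P I).symm ≪≫ₗ e.restrictScalars A⟩

end Invertible

variable {k : Type u} [Field k] {D : CurveData k} {K : Type u} [Field K] [Algebra k K] {i : Fin 2}
  {P : Type u} [AddCommGroup P] [Module (D.A K i) P] [Module K P] [IsScalarTower K (D.A K i) P]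
  [Module.Invertible (D.A K i) P]

omit [Module K P] [IsScalarTower K (D.A K i) P] in
/-- An invertible module modulo a nonzero ideal is the ring modulo the ideal. -/
theorem exists_quotient_equiv {I : Ideal (D.A K i)} (hI : I ≠ ⊥) :
    Nonempty ((P ⧸ I • (⊤ : Submodule (D.A K i) P)) ≃ₗ[D.A K i] (D.A K i ⧸ I)) :=
  have := CurveData.finiteDimensional_quotient hI
  nonempty_quotient_equiv K I

/-- The quotient of an invertible module by a nonzero ideal has the dimension of the quotient
ring. -/
theorem finrank_quotient_smul_top {I : Ideal (D.A K i)} (hI : I ≠ ⊥) :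
    Module.finrank K (P ⧸ I • (⊤ : Submodule (D.A K i) P)) = Module.finrank K (D.A K i ⧸ I) :=
  ((exists_quotient_equiv hI).some.restrictScalars K).finrank_eq

theorem finite_quotient_smul_top {I : Ideal (D.A K i)} (hI : I ≠ ⊥) :
    FiniteDimensional K (P ⧸ I • (⊤ : Submodule (D.A K i) P)) :=
  have := CurveData.finiteDimensional_quotient hI
  Module.Finite.equiv ((exists_quotient_equiv hI).some.restrictScalars K).symm

theorem finite_quotient_of_mem {Q : Submodule (D.A K i) P} {σ : P} (hσ : σ ≠ 0) (hQ : σ ∈ Q) :
    FiniteDimensional K (P ⧸ Q) := by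
  have := finite_quotient_smul_top (P := P) (content_ne_bot (A := D.A K i) hσ)
  have hle : (content σ : Ideal (D.A K i)) • (⊤ : Submodule (D.A K i) P) ≤ Q := by
    rw [← span_singleton_eq_content]
    exact (Submodule.span_singleton_le_iff_mem _ _).mpr hQ
  exact Module.Finite.of_surjective ((Submodule.factor hle).restrictScalars K)
    (Submodule.factor_surjective hle)

end Fermat.Agent.Jac

end
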